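import Fermat.Agent.Ribet.H220.S2Spec
import Fermat.Agent.Ribet.H232.NCTo
import Fermat.Agent.Ribet.H216.GaussDescent
import Fermat.Agent.A2.IF.H429.IF
import Fermat.Agent.A2.T1.H669.T1Core
import Fermat.Agent.S35.H858.NormBC
import Fermat.Agent.A2.Mod.H553.Fricke
import Fermat.Agent.A2.Mod.H553.Vinf
import Fermat.Agent.S37.H88.ALSwap

/-!
# Row 38, WALL-p, (S2), leaf **NC** (`H220.NormContrStatement`) — helper279

`normContr : H220.NormContrStatement` (VERBATIM): norm contraction at the level `ℚ̄`.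
If both norms of `f ∈ ℚ̄(X₀(pM'))` to level `M'` are `p`-th powers and `f` has depth `ϖ`
(constants allowed) at `V∞` (and at `V₀`), then `f` has depth `ϖⁿ` WITHOUT constants at `V∞` and
at `V₀`, for every `n`.

Proof: descent to a good level `E ⊆ ℚ̄` (`A2.IF.H429.ifStatement`) containing `ϖ`, the constant
and the coefficients of the data (`T1.H669.exists_finset_descent`); norms commute with `E ⊆ ℚ̄`
(`S35.H858.iota_normAlong_alpha/beta`); Gauss descent (`H216.gaussDescent`) turns the depth at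
`H708.Vinf` into depth `1` at `V∞(E)`; the level-`E` norm contraction `H232.wnc_both_one_to`
gives ONE root `g` with `f / g^p ∈ (1 + w^s V∞(E)) ∩ (1 + w^s V₀(E))` for all `s`; finally
`V∞(E) ⊆ V∞(ℚ̄)` (`iota_mem_Vinf`) and `ι ∘ w_{N,E} = w_N ∘ ι` (`H553.iota_wE`).

Only the depth at `V∞` is used; the hypotheses `p ≠ 2`, `ϖ ∣ p` and the depth at `V₀` are not
needed.
-/

set_option autoImplicit false
set_option linter.unusedSectionVars false
set_option linter.unusedVariables false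
set_option linter.style.haveILetI false
set_option synthInstance.maxHeartbeats 400000
set_option maxHeartbeats 1600000

noncomputable section

namespace Fermat.Agent.Ribet.H279.NC

open AlgebraicCurve ModularCurve HahnSeries
open Fermat.Agent.A2

/-! ### `V∞(E) ⊆ V∞(ℚ̄)` -/

/-- The Gauss ring of level `E` maps into the Gauss ring `H708.Vinf` over `P ⊆ ℚ̄`
(converse of `H216.gaussDescent`). -/
theorem iota_mem_Vinf {P : ValuationSubring Qb} {E : IntermediateField ℚ Qb} {N : ℕ} [NeZero N]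
    {ℓ : ℕ} (hℓ : ℓ ≠ 0) (hP : (ℓ : Qb) ∈ P.nonunits)
    {V : ValuationSubring (FE E N)} (hV : Mod.IsVinf P E N V) {y : FE E N} (hy : y ∈ V) :
    T1.H669.iota E (modularFunctionFieldFull N) y ∈ H708.Vinf N P hℓ hP := by
  obtain ⟨U₁, U₂, hred, hmem, heq⟩ := (hV y).mp hy
  show H708.IsGaussInt P (modularFunctionFieldFull N) _
  refine ⟨coeffMap (H216.reToP P E) U₁, coeffMap (H216.reToP P E) U₂,
    H216.red_coeffMap_reToP_ne_zero P E hred, ?_, ?_⟩
  · rw [H216.incl_coeffMap_reToP]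
    exact Fermat.Agent.S18.H602.coeffMap_mem_laurentBaseChange _ _ hmem
  · rw [H216.incl_coeffMap_reToP, H216.incl_coeffMap_reToP, T1.H669.coe_iota, ← map_mul, heq]

/-- `ι ∘ w_{N,E} = w_N ∘ ι` for the comparison map `T1.H669.iota`. -/
theorem iota_wE' (E : IntermediateField ℚ Qb) (N : ℕ) [NeZero N] (y : FE E N) :
    T1.H669.iota E (modularFunctionFieldFull N) (Mod.H553.wE E N y) =
      H528.wF N (T1.H669.iota E (modularFunctionFieldFull N) y) :=
  Mod.H553.iota_wE E N y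

/-- `V₀(E) ⊆ V₀(ℚ̄)`. -/
theorem iota_mem_Vzero {P : ValuationSubring Qb} {E : IntermediateField ℚ Qb} {N : ℕ} [NeZero N]
    {ℓ : ℕ} (hℓ : ℓ ≠ 0) (hP : (ℓ : Qb) ∈ P.nonunits)
    {V : ValuationSubring (FE E N)} (hV : Mod.IsVinf P E N V) {y : FE E N}
    (hy : y ∈ V.comap (Mod.H553.wE E N : FE E N →+* FE E N)) :
    T1.H669.iota E (modularFunctionFieldFull N) y ∈ H708.Vzero N P hℓ hP := by
  show H528.wF N (T1.H669.iota E (modularFunctionFieldFull N) y) ∈ H708.Vinf N P hℓ hP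
  rw [← iota_wE']
  exact iota_mem_Vinf hℓ hP hV hy

/-! ### Norms and levels -/

/-- The norm along `α` (top level renamed) commutes with `E ⊆ ℚ̄`. -/
theorem iota_normAlong_alphaTo (E : IntermediateField ℚ Qb) {M p N : ℕ} [NeZero M] [NeZero p]
    [NeZero N] (h : M * p = N) (hp : p.Prime) (hpM : ¬ p ∣ M) (y : FE E N) :
    T1.H669.iota E (modularFunctionFieldFull M)
        (S29.H395.normAlong (S29.H801.alphaTo E M p N h) y) =
      S29.H395.normAlong (S29.H801.alphaTo Qb M p N h)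
        (T1.H669.iota E (modularFunctionFieldFull N) y) := by
  subst h
  exact S35.H858.iota_normAlong_alpha E M p (S37.H88.finiteAlong_heckeAlphaBar' hp hpM) y

/-- The norm along `β` (top level renamed) commutes with `E ⊆ ℚ̄`. -/
theorem iota_normAlong_betaTo (E : IntermediateField ℚ Qb) {M p N : ℕ} [NeZero M] [NeZero p]
    [NeZero N] (h : M * p = N) (hp : p.Prime) (hpM : ¬ p ∣ M) (y : FE E N) :
    T1.H669.iota E (modularFunctionFieldFull M)
        (S29.H395.normAlong (S29.H801.betaTo E M p N h) y) =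
      S29.H395.normAlong (S29.H801.betaTo Qb M p N h)
        (T1.H669.iota E (modularFunctionFieldFull N) y) := by
  subst h
  exact S35.H858.iota_normAlong_beta E M p (S37.H88.finiteAlong_heckeBetaBar hp hpM) y

/-! ### The level-`E` statement pushed to `ℚ̄` -/

/-- **Norm contraction at a level, pushed to `ℚ̄`.**  `E` a level with `R_E` a discrete
valuation ring, `N = M p` (renamed).  Data of level `E`: `f`, norms `g₁ ^ p`, `g₂ ^ p`,
`f = c · g ^ p · (1 + ϖ y)` with `y ∈ V∞(E)`, `ϖ` a nonzero nonunit of `R_E`.  Then the image of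
`f` in `ℚ̄(X₀(N))` has depth `ϖⁿ` without constants at `H708.Vinf` and at `H708.Vzero`. -/
theorem deep_of_level {P : ValuationSubring Qb} {E : IntermediateField ℚ Qb} {M p N : ℕ}
    [NeZero M] [NeZero p] [NeZero N] (h : M * p = N) {w : RE P E} (hS : Mod.Setting P E M p w)
    (f g y : FE E N) (g₁ g₂ : FE E M) (c ϖ : E) (hf : f ≠ 0) (hc : c ≠ 0) (hg : g ≠ 0)
    (hϖ0 : ϖ ≠ 0) (hϖ : (ϖ : Qb) ∈ P.nonunits)
    (hNα : S29.H395.normAlong (S29.H801.alphaTo E M p N h) f = g₁ ^ p)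
    (hNβ : S29.H395.normAlong (S29.H801.betaTo E M p N h) f = g₂ ^ p)
    (hfc : f = algebraMap E (FE E N) c * g ^ p * (1 + algebraMap E (FE E N) ϖ * y))
    (hy : T1.H669.iota E (modularFunctionFieldFull N) y ∈
      H708.Vinf N P hS.q_prime.ne_zero hS.lies_over) (n : ℕ) :
    H220.Deep (H708.Vinf N P hS.q_prime.ne_zero hS.lies_over) p
        (H220.cF N (ϖ : Qb) ^ n) (T1.H669.iota E (modularFunctionFieldFull N) f) ∧
      H220.Deep (H708.Vzero N P hS.q_prime.ne_zero hS.lies_over) p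
        (H220.cF N (ϖ : Qb) ^ n) (T1.H669.iota E (modularFunctionFieldFull N) f) := by
  haveI hdvr : IsDiscreteValuationRing (RE P E) := hS.dvr
  have hℓ := hS.q_prime.ne_zero
  have hP := hS.lies_over
  -- the Gauss rings and the Fricke involution of level `E`
  set V : ValuationSubring (FE E N) := Mod.H553.VinfE P E N with hVdef
  have hV : Mod.IsVinf P E N V := Mod.H553.isVinf_VinfE P E N
  have hVM : Mod.IsVinf P E M (Mod.H553.VinfE P E M) := Mod.H553.isVinf_VinfE P E M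
  have hW : Mod.IsFricke E N (Mod.H553.wE E N) := Mod.H553.isFricke_wE E N
  have hconst : ∀ r : RE P E, algebraMap E (FE E N) (r : E) ∈ V := fun r =>
    (Mod.H553.algebraMap_mem_iff P E hV (r : E)).mpr r.2
  have hconst₀ : ∀ r : RE P E, algebraMap E (FE E N) (r : E) ∈
      V.comap (Mod.H553.wE E N : FE E N →+* FE E N) := fun r => by
    show (Mod.H553.wE E N) (algebraMap E (FE E N) (r : E)) ∈ V
    rw [AlgEquiv.commutes]
    exact hconst r
  -- `ϖ` as an element of `R_E`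
  have hϖlt : P.valuation (ϖ : Qb) < 1 := by
    have h := hϖ
    rw [ValuationSubring.mem_nonunits_iff] at h
    exact h
  have hϖmem : ϖ ∈ RE P E := by
    show (algebraMap E Qb ϖ) ∈ P
    exact (P.valuation_le_one_iff _).mp (le_of_lt hϖlt)
  set ϖR : RE P E := ⟨ϖ, hϖmem⟩ with hϖR
  have hϖR0 : ϖR ≠ 0 := fun h0 => hϖ0 (congrArg Subtype.val h0)
  have hϖRnu : ¬ IsUnit ϖR := by
    intro hu
    obtain ⟨v, hv⟩ := hu.exists_right_inv
    have h1 : (ϖ : Qb) * ((v : E) : Qb) = 1 := by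
      have := congrArg (fun z : RE P E => ((z : E) : Qb)) hv
      simpa using this
    have h2 : P.valuation (ϖ : Qb) < 1 := hϖlt
    have h3 : P.valuation ((v : E) : Qb) ≤ 1 := (P.valuation_le_one_iff _).mpr v.2
    have h4 : P.valuation ((ϖ : Qb) * ((v : E) : Qb)) < 1 := by
      rw [map_mul]
      exact mul_lt_one_of_lt_of_le h2 h3
    rw [h1, map_one] at h4
    exact lt_irrefl _ h4
  -- `ϖ = w * r`
  obtain ⟨r, hr⟩ : ∃ r : RE P E, ϖR = w * r := by
    have hmem : ϖR ∈ IsLocalRing.maximalIdeal (RE P E) :=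
      (IsLocalRing.mem_maximalIdeal _).mpr hϖRnu
    rw [hS.unif.maximalIdeal_eq, Ideal.mem_span_singleton'] at hmem
    obtain ⟨r, hr⟩ := hmem
    exact ⟨r, by rw [← hr, mul_comm]⟩
  -- `ϖ * u = w ^ k`
  obtain ⟨k, u, hu⟩ : ∃ (k : ℕ) (u : (RE P E)ˣ), ϖR * (u : RE P E) = w ^ k := by
    obtain ⟨k, hk⟩ := IsDiscreteValuationRing.associated_pow_irreducible hϖR0 hS.unif
    obtain ⟨u, hu⟩ := hk
    exact ⟨k, u, hu⟩
  -- the constants in `F_E`
  have hcw0 : Mod.cE P E N w ≠ 0 :=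
    (map_ne_zero_iff _ (algebraMap E (FE E N)).injective).mpr
      (fun h0 => hS.unif.ne_zero (Subtype.ext h0))
  have hcϖ0 : algebraMap E (FE E N) ϖ ≠ 0 :=
    (map_ne_zero_iff _ (algebraMap E (FE E N)).injective).mpr hϖ0
  have hcc0 : algebraMap E (FE E N) c ≠ 0 :=
    (map_ne_zero_iff _ (algebraMap E (FE E N)).injective).mpr hc
  have hcϖ : algebraMap E (FE E N) ϖ = Mod.cE P E N w * algebraMap E (FE E N) (r : E) := by
    have := congrArg (fun z : RE P E => algebraMap E (FE E N) (z : E)) hr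
    simpa [Mod.cE, map_mul] using this
  have hcu : ∀ m : ℕ, algebraMap E (FE E N) ϖ ^ m *
      algebraMap E (FE E N) (((u ^ m : (RE P E)ˣ) : RE P E) : E) = Mod.cE P E N w ^ (k * m) := by
    intro m
    have h1 : (ϖR * (u : RE P E)) ^ m = w ^ (k * m) := by rw [hu, pow_mul]
    have := congrArg (fun z : RE P E => algebraMap E (FE E N) (z : E)) h1
    simpa [Mod.cE, map_mul, map_pow, mul_pow] using this
  -- depth one at `V∞(E)`
  have hyV : y ∈ V := H216.gaussDescent P E N hℓ hP hdvr V hV y hy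
  have h1 : H232.DepthE w p V 1 f := by
    refine ⟨c, hc, g, hg, ?_⟩
    have e1 : (f * (algebraMap E (FE E N) c * g ^ p)⁻¹ - 1) * (Mod.cE P E N w ^ 1)⁻¹ =
        algebraMap E (FE E N) (r : E) * y := by
      rw [hfc, hcϖ, pow_one]
      field_simp
      ring
    rw [e1]
    exact V.mul_mem _ _ (hconst r) hyV
  -- norm contraction at level `E`
  obtain ⟨g', hg', hzI, hzZ⟩ :=
    H232.wnc_both_one_to h hS hVM hV hW hf hNα hNβ (Or.inl h1) (k * n)
  -- the element `z = (f / g'^p - 1) / ϖ^n`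
  set z : FE E N := (f * (g' ^ p)⁻¹ - 1) * (algebraMap E (FE E N) ϖ ^ n)⁻¹ with hz
  have hzeq : z = (f * (g' ^ p)⁻¹ - 1) * (Mod.cE P E N w ^ (k * n))⁻¹ *
      algebraMap E (FE E N) (((u ^ n : (RE P E)ˣ) : RE P E) : E) := by
    rw [hz, ← hcu n]
    have hun0 : algebraMap E (FE E N) (((u ^ n : (RE P E)ˣ) : RE P E) : E) ≠ 0 := by
      refine (map_ne_zero_iff _ (algebraMap E (FE E N)).injective).mpr ?_
      intro h0
      exact (u ^ n).ne_zero (Subtype.ext h0)
    have hϖn0 : algebraMap E (FE E N) ϖ ^ n ≠ 0 := pow_ne_zero _ hcϖ0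
    field_simp
  have hzV : z ∈ V := by
    rw [hzeq]
    exact V.mul_mem _ _ hzI (hconst _)
  have hzV₀ : z ∈ V.comap (Mod.H553.wE E N : FE E N →+* FE E N) := by
    rw [hzeq]
    exact (V.comap (Mod.H553.wE E N : FE E N →+* FE E N)).mul_mem _ _ hzZ (hconst₀ _)
  -- `f = g'^p * (1 + ϖ^n z)`
  have hfz : f = g' ^ p * (1 + algebraMap E (FE E N) ϖ ^ n * z) := by
    have hgp : g' ^ p ≠ 0 := pow_ne_zero _ hg'
    have hϖn0 : algebraMap E (FE E N) ϖ ^ n ≠ 0 := pow_ne_zero _ hcϖ0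
    rw [hz]
    field_simp
    ring
  -- push to `ℚ̄`
  have hιϖ : T1.H669.iota E (modularFunctionFieldFull N) (algebraMap E (FE E N) ϖ) =
      H220.cF N (ϖ : Qb) := T1.H669.iota_algebraMap E (modularFunctionFieldFull N) ϖ
  have hιf : T1.H669.iota E (modularFunctionFieldFull N) f =
      (T1.H669.iota E (modularFunctionFieldFull N) g') ^ p *
        (1 + H220.cF N (ϖ : Qb) ^ n * T1.H669.iota E (modularFunctionFieldFull N) z) := by
    conv_lhs => rw [hfz]
    rw [map_mul, map_pow, map_add, map_one, map_mul, map_pow, hιϖ]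
  have hιg' : T1.H669.iota E (modularFunctionFieldFull N) g' ≠ 0 :=
    T1.H669.iota_ne_zero E _ hg'
  exact ⟨⟨_, _, hιg', hιf, _, iota_mem_Vinf hℓ hP hV hzV, rfl⟩,
    ⟨_, _, hιg', hιf, _, iota_mem_Vzero hℓ hP hV hzV₀, rfl⟩⟩

/-! ### The leaf -/

/-- **NC** — `H220.NormContrStatement`, verbatim. -/
theorem normContr : H220.NormContrStatement := by
  intro p M' _ _ _ hp hp2 hpM A hA f g₁ g₂ hf hNα hNβ ϖ hϖ0 hϖA hϖp hInf hZero n
  classical
  obtain ⟨c, g, u, hc, hg, hfc, y, hy, hu⟩ := hInf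
  -- finite sets of constants
  obtain ⟨S₁, hS₁⟩ := T1.H669.exists_finset_descent (modularFunctionFieldFull (p * M')) f
  obtain ⟨S₂, hS₂⟩ := T1.H669.exists_finset_descent (modularFunctionFieldFull (p * M')) g
  obtain ⟨S₃, hS₃⟩ := T1.H669.exists_finset_descent (modularFunctionFieldFull (p * M')) y
  obtain ⟨S₄, hS₄⟩ := T1.H669.exists_finset_descent (modularFunctionFieldFull M') g₁
  obtain ⟨S₅, hS₅⟩ := T1.H669.exists_finset_descent (modularFunctionFieldFull M') g₂
  obtain ⟨E, hSE, hE⟩ := A2.IF.H429.ifStatement p hp A hA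
    (S₁ ∪ S₂ ∪ S₃ ∪ S₄ ∪ S₅ ∪ {ϖ, c})
  have hsub : ∀ T : Finset Qb, T ⊆ S₁ ∪ S₂ ∪ S₃ ∪ S₄ ∪ S₅ ∪ {ϖ, c} → ∀ s ∈ T, s ∈ E :=
    fun T hT s hs => hSE s (hT hs)
  obtain ⟨fE, hfE⟩ := hS₁ E (hsub S₁ (by intro s hs; simp [hs]))
  obtain ⟨gE, hgE⟩ := hS₂ E (hsub S₂ (by intro s hs; simp [hs]))
  obtain ⟨yE, hyE⟩ := hS₃ E (hsub S₃ (by intro s hs; simp [hs]))
  obtain ⟨g₁E, hg₁E⟩ := hS₄ E (hsub S₄ (by intro s hs; simp [hs]))
  obtain ⟨g₂E, hg₂E⟩ := hS₅ E (hsub S₅ (by intro s hs; simp [hs]))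
  have hϖE : ϖ ∈ E := hSE ϖ (by simp)
  have hcE : c ∈ E := hSE c (by simp)
  haveI := hE.dvr
  obtain ⟨w, hw⟩ := IsDiscreteValuationRing.exists_irreducible (RE A E)
  have hS : Mod.Setting A E M' p w := ⟨hp, hpM, NeZero.ne M', hA, hE.dvr, hw⟩
  have hinj := T1.H669.iota_injective E (modularFunctionFieldFull (p * M'))
  have hinjM := T1.H669.iota_injective E (modularFunctionFieldFull M')
  have key := deep_of_level (Nat.mul_comm M' p) hS fE gE yE g₁E g₂E ⟨c, hcE⟩ ⟨ϖ, hϖE⟩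
    (fun h0 => hf (by rw [← hfE, h0, map_zero]))
    (fun h0 => hc (congrArg Subtype.val h0))
    (fun h0 => hg (by rw [← hgE, h0, map_zero]))
    (fun h0 => hϖ0 (congrArg Subtype.val h0))
    hϖA
    (hinjM (by
      rw [iota_normAlong_alphaTo E (Nat.mul_comm M' p) hp hpM, hfE, map_pow, hg₁E]
      exact hNα))
    (hinjM (by
      rw [iota_normAlong_betaTo E (Nat.mul_comm M' p) hp hpM, hfE, map_pow, hg₂E]
      exact hNβ))
    (hinj (by
      rw [map_mul, map_mul, map_pow, map_add, map_one, map_mul, hfE, hgE, hyE,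
        T1.H669.iota_algebraMap, T1.H669.iota_algebraMap, hfc, hu]
      rfl))
    (by rw [hyE]; exact hy) n
  rw [hfE] at key
  exact key

end Fermat.Agent.Ribet.H279.NC

end
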