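import Fermat.Agent.A2.Mod.H13.Frame
import Fermat.Agent.A2.Mod.H553.VzeroNe
import Fermat.Agent.A2.Mod.H553.Fricke
import Fermat.Agent.A2.Mod.H31.Deg
import Fermat.Agent.A2.Mod.H753.IndInf
import Fermat.Agent.A2.Mod.H753.IndZero

/-!
# RIBET, wall at `p`, norm contraction: FRICKE versus SWAP (helper279)

Level `N = M * q`, `q ∤ M` prime, `E` a level, `V = V∞` the Gauss valuation ring of `F_{N,E}`
(`A2.Mod.IsVinf`), `W` the full Fricke involution `w_N` (`A2.Mod.IsFricke`), so that the second
component of the special fibre is `V₀ = V.comap W` (`A2/Mod/Spec.lean`).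

The norm-contraction cores (`Ribet/H400/NCAbs.lean`, `Ribet/H279/NCInst.lean`) work with the
Atkin–Lehner SWAP `s = w_q` (`s ∘ α = β`, `s ∘ β = α`) and produce depth at `V∞` and at
`V∞ ∘ s`.  This file identifies the two:

* `eq_or_eq_of_isGaussOver` : a valuation subring of `F_{N,E}` inducing the Gauss valuation on
  `E(x)`, `x = j · j_q`, is `V∞` or `V₀` (from `H489.TwoExtHyp.only` and the landed leaves
  L2, L3, L6, L8, L9, L10 of A2 MOD);
* `comap_swap_eq_comap_fricke` : `V.comap s = V.comap W` for EVERY ring endomorphism `s` of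
  `F_{N,E}` with `s ∘ α = β` and `s ∘ β = α`;
* `swap_mem_iff_fricke_mem`, `inW_swap_iff_inW_fricke` : elementwise forms.
-/

set_option autoImplicit false
set_option linter.unusedSectionVars false
set_option linter.style.haveILetI false
set_option synthInstance.maxHeartbeats 400000
set_option maxHeartbeats 1600000

noncomputable section

namespace Fermat.Agent.Ribet.H279

open ModularCurve HahnSeries Polynomial IntermediateField
open Fermat.Agent.A2.Mod

variable {P : ValuationSubring Qb} {E : IntermediateField ℚ Qb} {M q : ℕ} [NeZero M] [NeZero q]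
  {w : RE P E}

/-! ### Only two valuation rings induce the Gauss valuation on `E(x)` -/

/-- **Third valuation.**  A valuation subring of `F_{Mq,E}` which induces the Gauss valuation on
`E(x)`, `x = j · j_q`, is `V∞` or `V₀ = V∞ ∘ W`. -/
theorem eq_or_eq_of_isGaussOver (hS : Setting P E M q w)
    {V : ValuationSubring (FE E (M * q))} {W : FE E (M * q) ≃ₐ[E] FE E (M * q)}
    (hV : IsVinf P E (M * q) V) (hW : IsFricke E (M * q) W)
    {V' : ValuationSubring (FE E (M * q))}
    (hV' : haveI := hS.dvr; A2.H489.IsGaussOver (RE P E) V' (xE E M q)) :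
    V' = V ∨ V' = V.comap (W : FE E (M * q) →+* FE E (M * q)) := by
  haveI := hS.dvr
  obtain ⟨htr, hfr, -⟩ := H31.deg E M q hS.q_prime hS.q_not_dvd
  have hpos : 0 < Module.finrank (IntermediateField.adjoin E ({xE E M q} : Set (FE E (M * q))))
      (FE E (M * q)) := by
    rw [hfr]
    have h1 := dedekindPsi_pos_of_ne_zero M (NeZero.ne M)
    positivity
  haveI hfin : FiniteDimensional (IntermediateField.adjoin E ({xE E M q} : Set (FE E (M * q))))
      (FE E (M * q)) := Module.finite_of_finrank_pos hpos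
  obtain ⟨b, c, hdvr, hT⟩ := H13.twoExtHyp_of_leaves hS V W hV hW
    (H553.vzeroNe P E M q w) (H31.deg E M q) (H753.indInf P E M q w) (H753.indZero P E M q w)
  haveI := hdvr
  have hG₁ := H13.isGaussOver_xE hS.unif hV htr
  have hover : A2.H489.IsOver (A2.H489.gaussRing E V (xE E M q)) V' :=
    { mem := fun a => (hG₁.mem_iff_mem (E := E) hV' (a : E⟮xE E M q⟯).2).mp a.2
      nonunit := fun a ha =>
        (hG₁.mem_nonunits_iff_mem (E := E) hV' (a : E⟮xE E M q⟯).2).mp
          ((A2.H489.mem_maximalIdeal_gaussRing a).mp ha) }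
  exact hT.only hover

/-! ### The swap -/

section Swap

variable (s : FE E (M * q) →+* FE E (M * q))
  (hsα : ∀ a : FE E M, s (αE E M q a) = βE E M q a)
  (hsβ : ∀ a : FE E M, s (βE E M q a) = αE E M q a)

include hsα in
/-- a swap fixes the constants -/
theorem swapE_algebraMap (e : E) :
    s (algebraMap E (FE E (M * q)) e) = algebraMap E (FE E (M * q)) e := by
  have h1 : algebraMap E (FE E (M * q)) e = αE E M q (algebraMap E (FE E M) e) :=
    ((αE E M q).commutes e).symm
  have h2 : algebraMap E (FE E (M * q)) e = βE E M q (algebraMap E (FE E M) e) :=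
    ((βE E M q).commutes e).symm
  rw [h1, hsα, ← h2, ← h1]

include hsα in
/-- `s j = j_q` -/
theorem swapE_j :
    s (jE E (M * q) 1 (one_dvd _)) = jE E (M * q) q (dvd_mul_left q M) := by
  have h1 : jE E (M * q) 1 (one_dvd _) = αE E M q (jE E M 1 (one_dvd _)) :=
    (H553.αE_jE E M q 1 (one_dvd _)).symm
  have h2 : βE E M q (jE E M 1 (one_dvd _)) = jE E (M * q) q (dvd_mul_left q M) := by
    rw [H553.βE_jE E M q 1 (one_dvd _)]
    apply Subtype.ext
    show coeffEmb E (qExpand ℚ (1 * q) jq) = coeffEmb E (qExpand ℚ q jq)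
    rw [qExpand_congr (one_mul q) jq]
  rw [h1, hsα, h2]

include hsβ in
/-- `s j_q = j` -/
theorem swapE_jq :
    s (jE E (M * q) q (dvd_mul_left q M)) = jE E (M * q) 1 (one_dvd _) := by
  have h1 : jE E (M * q) 1 (one_dvd _) = αE E M q (jE E M 1 (one_dvd _)) :=
    (H553.αE_jE E M q 1 (one_dvd _)).symm
  have h2 : βE E M q (jE E M 1 (one_dvd _)) = jE E (M * q) q (dvd_mul_left q M) := by
    rw [H553.βE_jE E M q 1 (one_dvd _)]
    apply Subtype.ext
    show coeffEmb E (qExpand ℚ (1 * q) jq) = coeffEmb E (qExpand ℚ q jq)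
    rw [qExpand_congr (one_mul q) jq]
  rw [← h2, hsβ, h1]

include hsα hsβ in
/-- a swap fixes the coordinate `x = j · j_q` -/
theorem swapE_xE : s (xE E M q) = xE E M q := by
  rw [xE, map_mul, swapE_j s hsα, swapE_jq s hsβ]
  exact mul_comm _ _

/-- a swap as an `E`-algebra endomorphism -/
def swapEAlg : FE E (M * q) →ₐ[E] FE E (M * q) :=
  { s with commutes' := fun e => swapE_algebraMap s hsα e }

theorem swapEAlg_apply (f : FE E (M * q)) : swapEAlg s hsα f = s f := rfl

include hsα in
theorem swapE_aeval [IsDiscreteValuationRing (RE P E)] (u : FE E (M * q))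
    (p : Polynomial (RE P E)) : s (aeval u p) = aeval (s u) p := by
  have := Polynomial.aeval_algHom_apply ((swapEAlg s hsα).restrictScalars (RE P E)) u p
  exact this.symm

include hsα in
/-- `V∞ ∘ s` lies over `R_E` -/
theorem isOver_comap_swap [IsDiscreteValuationRing (RE P E)]
    {V : ValuationSubring (FE E (M * q))} (hV : IsVinf P E (M * q) V) :
    A2.H489.IsOver (RE P E) (V.comap s) where
  mem := fun r => by
    rw [ValuationSubring.mem_comap]
    show s (algebraMap (RE P E) (FE E (M * q)) r) ∈ V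
    rw [H13.algebraMap_RE_eq, swapE_algebraMap s hsα]
    exact (H13.isOver_of_isVinf hV).mem r
  nonunit := fun r hr => by
    rw [H13.mem_nonunits_comap]
    show s (algebraMap (RE P E) (FE E (M * q)) r) ∈ V.nonunits
    rw [H13.algebraMap_RE_eq, swapE_algebraMap s hsα]
    exact (H13.isOver_of_isVinf hV).nonunit r hr

include hsα hsβ in
/-- `V∞ ∘ s` induces the Gauss valuation on `E(x)` -/
theorem isGaussOver_comap_swap (hS : Setting P E M q w)
    {V : ValuationSubring (FE E (M * q))} (hV : IsVinf P E (M * q) V) :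
    haveI := hS.dvr
    A2.H489.IsGaussOver (RE P E) (V.comap s) (xE E M q) := by
  haveI := hS.dvr
  obtain ⟨htr, -, -⟩ := H31.deg E M q hS.q_prime hS.q_not_dvd
  have hG₁ := H13.isGaussOver_xE hS.unif hV htr
  refine ⟨isOver_comap_swap s hsα hV, ?_, ?_⟩
  · show s (xE E M q) ∈ V
    rw [swapE_xE s hsα hsβ]
    exact hG₁.mem
  · intro p hp
    apply hG₁.prim p
    rw [H13.mem_nonunits_comap, swapE_aeval s hsα, swapE_xE s hsα hsβ] at hp
    exact hp

/-! ### `V∞ ∘ s ≠ V∞` -/

include hsα hsβ in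
/-- the expansion of `s u = j - j_q ^ q`, `u = j_q - j ^ q` the Frobenius element -/
theorem coe_swap_frobE :
    ((s (H553.frobE E M q) : FE E (M * q)) : LaurentSeries E) =
      coeffEmb E (A2.H708.castQ (A2.H708.jInt 1 - A2.H708.jInt q ^ q)) := by
  have h1 : s (H553.frobE E M q) =
      jE E (M * q) 1 (one_dvd _) - jE E (M * q) q (dvd_mul_left q M) ^ q := by
    rw [H553.frobE, map_sub, map_pow, swapE_j s hsα, swapE_jq s hsβ]
  rw [h1, map_sub, map_sub, map_pow, map_pow, ← H553.coe_jE (E := E) (M * q) 1 (one_dvd _),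
    ← H553.coe_jE (E := E) (M * q) q (dvd_mul_left q M)]
  rfl

theorem coeff_swap_frob (hq : q.Prime) :
    (A2.H708.jInt 1 - A2.H708.jInt q ^ q).coeff (-((q * q : ℕ) : ℤ)) = -1 := by
  have hq1 : 1 < q := hq.one_lt
  have e1 : A2.H708.jInt 1 = A2.H528.jZ 1 := rfl
  have e2 : A2.H708.jInt q = A2.H528.jZ q := rfl
  rw [HahnSeries.coeff_sub, e1, e2, A2.H528.coeff_jZ_pow_top, A2.H528.coeff_jZ_of_lt, zero_sub]
  have h2 : 1 < q * q := by nlinarith
  have h3 : ((1 : ℕ) : ℤ) < ((q * q : ℕ) : ℤ) := by exact_mod_cast h2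
  linarith

include hsα hsβ in
/-- `V∞ ∘ s ≠ V∞`: the Frobenius element `j_q - j ^ q` is a non-unit of `V∞` and a unit of
`V∞ ∘ s`. -/
theorem comap_swap_ne (hS : Setting P E M q w)
    {V : ValuationSubring (FE E (M * q))} {W : FE E (M * q) ≃ₐ[E] FE E (M * q)}
    (hV : IsVinf P E (M * q) V) (hW : IsFricke E (M * q) W) :
    V.comap s ≠ V := by
  intro heq
  haveI : Fact q.Prime := ⟨hS.q_prime⟩
  haveI := hS.dvr
  have hWu0 : W (H553.frobE E M q) ≠ 0 := H553.W_frobE_ne_zero hW
  have hu0 : H553.frobE E M q ≠ 0 := fun h0 => hWu0 (by rw [h0, map_zero])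
  have h1 : (H553.frobE E M q)⁻¹ ∈ V.comap s := by
    show s ((H553.frobE E M q)⁻¹) ∈ V
    rw [map_inv₀]
    exact H553.inv_mem_of_int hV (coe_swap_frobE s hsα hsβ) (Or.inr (coeff_swap_frob hS.q_prime))
  rw [heq] at h1
  exact H553.inv_frobE_not_mem hS.lies_over hV hu0 h1

/-! ### FRICKE = SWAP on valuation rings -/

include hsα hsβ in
/-- **FRICKE-SWAP.**  For every ring endomorphism `s` of `F_{Mq,E}` exchanging `α` and `β`
(the Atkin–Lehner involution `w_q`), `V∞ ∘ s = V∞ ∘ W = V₀`, `W` the full Fricke involution. -/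
theorem comap_swap_eq_comap_fricke (hS : Setting P E M q w)
    {V : ValuationSubring (FE E (M * q))} {W : FE E (M * q) ≃ₐ[E] FE E (M * q)}
    (hV : IsVinf P E (M * q) V) (hW : IsFricke E (M * q) W) :
    V.comap s = V.comap (W : FE E (M * q) →+* FE E (M * q)) :=
  (eq_or_eq_of_isGaussOver hS hV hW (isGaussOver_comap_swap s hsα hsβ hS hV)).resolve_left
    (comap_swap_ne s hsα hsβ hS hV hW)

include hsα hsβ in
/-- elementwise form -/
theorem swap_mem_iff_fricke_mem (hS : Setting P E M q w)
    {V : ValuationSubring (FE E (M * q))} {W : FE E (M * q) ≃ₐ[E] FE E (M * q)}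
    (hV : IsVinf P E (M * q) V) (hW : IsFricke E (M * q) W) (f : FE E (M * q)) :
    s f ∈ V ↔ W f ∈ V := by
  have h := comap_swap_eq_comap_fricke s hsα hsβ hS hV hW
  have h1 : f ∈ V.comap s ↔ f ∈ V.comap (W : FE E (M * q) →+* FE E (M * q)) := by rw [h]
  exact h1

include hsα hsβ in
/-- `s f ∈ c · V∞ ⟺ f ∈ c · V₀` for every constant `c ∈ E`. -/
theorem swap_mul_const_mem_iff (hS : Setting P E M q w)
    {V : ValuationSubring (FE E (M * q))} {W : FE E (M * q) ≃ₐ[E] FE E (M * q)}
    (hV : IsVinf P E (M * q) V) (hW : IsFricke E (M * q) W) (f : FE E (M * q)) (c : E) :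
    s f * algebraMap E (FE E (M * q)) c ∈ V ↔
      f * algebraMap E (FE E (M * q)) c ∈ V.comap (W : FE E (M * q) →+* FE E (M * q)) := by
  rw [← comap_swap_eq_comap_fricke s hsα hsβ hS hV hW, ValuationSubring.mem_comap, map_mul,
    swapE_algebraMap s hsα]

include hsα hsβ in
/-- `s f ∈ w V∞ ⟺ f ∈ w V₀`. -/
theorem inW_swap_iff_inW_fricke (hS : Setting P E M q w)
    {V : ValuationSubring (FE E (M * q))} {W : FE E (M * q) ≃ₐ[E] FE E (M * q)}
    (hV : IsVinf P E (M * q) V) (hW : IsFricke E (M * q) W) (f : FE E (M * q)) :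
    InW P E (M * q) V w (s f) ↔
      InW P E (M * q) (V.comap (W : FE E (M * q) →+* FE E (M * q))) w f := by
  unfold InW
  rw [← comap_swap_eq_comap_fricke s hsα hsβ hS hV hW, ValuationSubring.mem_comap, map_mul,
    map_inv₀]
  have h : s (cE P E (M * q) w) = cE P E (M * q) w := swapE_algebraMap s hsα _
  rw [h]

end Swap

end Fermat.Agent.Ribet.H279

end
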