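import Fermat.Agent.Ribet.H279.NormContr
import Fermat.Agent.A2.Mod.H13.Frame

/-!
# Row 38, WALL-p, (S4) CORE-OUT WILD, WildFrame piece **2-LEVEL MODEL**, part 1 (helper279):
# the level map `F_{E₁}(N) → F_{E₂}(N)` for levels `E₁ ≤ E₂ ⊆ ℚ̄`

* `reMap hle : R_{E₁} →+* R_{E₂}` (inclusion `P ∩ E₁ ⊆ P ∩ E₂`), injective, local
  (`isUnit_of_reMap`), `exists_unif` (`w₁ = η · w₂ ^ e`, `0 < e`);
* `levelMap hle N : F_{E₁}(N) →+* F_{E₂}(N)` (coefficientwise inclusion), injective, with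
  `iota_levelMap` (`ι₂ ∘ levelMap = ι₁`), `levelMap_algebraMap`, `levelMap_cE`, `levelMap_jE`,
  `levelMap_xE`, `levelMap_wE` (Fricke), `levelMap_fricke` (ANY pair of Fricke involutions);
* Gauss rings: `levelMap_mem_Vinf_iff` (`V∞(E₂) ∩ F_{E₁} = V∞(E₁)`), `levelMap_mem_Vzero_iff`,
  `levelMap_inW_iff`, `levelMap_inW_comap_iff` (`w₂ V∞(E₂) ∩ F_{E₁} = w₁ V∞(E₁)`, same for `V₀`).
-/

set_option autoImplicit false
set_option linter.unusedSectionVars false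
set_option linter.unusedVariables false
set_option linter.style.haveILetI false
set_option synthInstance.maxHeartbeats 400000
set_option maxHeartbeats 1600000

noncomputable section

namespace Fermat.Agent.Ribet.H279.TwoLevel

open AlgebraicCurve ModularCurve HahnSeries
open Fermat.Agent.A2

variable {E₁ E₂ : IntermediateField ℚ Qb}

/-! ### The inclusion of the constants -/

/-- The inclusion `E₁ → E₂` as a ring homomorphism. -/
def inclE (hle : E₁ ≤ E₂) : E₁ →+* E₂ := (IntermediateField.inclusion hle : E₁ →+* E₂)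

@[simp] theorem coe_inclE (hle : E₁ ≤ E₂) (e : E₁) : ((inclE hle e : E₂) : Qb) = (e : Qb) := rfl

theorem algebraMap_inclE (hle : E₁ ≤ E₂) (e : E₁) :
    algebraMap E₂ Qb (inclE hle e) = algebraMap E₁ Qb e := rfl

theorem algebraMap_comp_inclE (hle : E₁ ≤ E₂) :
    (algebraMap E₂ Qb).comp (inclE hle) = algebraMap E₁ Qb := RingHom.ext fun _ => rfl

theorem inclE_injective (hle : E₁ ≤ E₂) : Function.Injective (inclE hle) :=
  (inclE hle).injective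

/-- The inclusion `R_{E₁} → R_{E₂}`. -/
def reMap (P : ValuationSubring Qb) (hle : E₁ ≤ E₂) : RE P E₁ →+* RE P E₂ where
  toFun r := ⟨inclE hle (r : E₁), r.2⟩
  map_one' := Subtype.ext (map_one _)
  map_mul' _ _ := Subtype.ext (map_mul _ _ _)
  map_zero' := Subtype.ext (map_zero _)
  map_add' _ _ := Subtype.ext (map_add _ _ _)

@[simp] theorem coe_reMap (P : ValuationSubring Qb) (hle : E₁ ≤ E₂) (r : RE P E₁) :
    ((reMap P hle r : RE P E₂) : E₂) = inclE hle (r : E₁) := rfl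

theorem reMap_injective (P : ValuationSubring Qb) (hle : E₁ ≤ E₂) :
    Function.Injective (reMap P hle) := by
  intro a b h
  apply Subtype.ext
  apply inclE_injective hle
  exact congrArg Subtype.val h

/-- `R_{E₁} → R_{E₂}` is local. -/
theorem isUnit_of_reMap (P : ValuationSubring Qb) (hle : E₁ ≤ E₂) {r : RE P E₁}
    (h : IsUnit (reMap P hle r)) : IsUnit r := by
  obtain ⟨s, hs⟩ := isUnit_iff_exists_inv.mp h
  have h1 : (algebraMap E₁ Qb (r : E₁)) * (algebraMap E₂ Qb (s : E₂)) = 1 := by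
    have := congrArg (fun z : RE P E₂ => algebraMap E₂ Qb (z : E₂)) hs
    simpa using this
  have hr0 : (r : E₁) ≠ 0 := by
    intro h0
    rw [h0, map_zero, zero_mul] at h1
    exact zero_ne_one h1
  have h2 : algebraMap E₁ Qb ((r : E₁)⁻¹) = algebraMap E₂ Qb (s : E₂) := by
    rw [map_inv₀]
    exact inv_eq_of_mul_eq_one_right h1
  have hmem : (r : E₁)⁻¹ ∈ RE P E₁ := by
    show algebraMap E₁ Qb ((r : E₁)⁻¹) ∈ P
    rw [h2]
    exact s.2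
  refine isUnit_iff_exists_inv.mpr ⟨⟨_, hmem⟩, Subtype.ext ?_⟩
  show (r : E₁) * (r : E₁)⁻¹ = 1
  exact mul_inv_cancel₀ hr0

/-- **`unif`**: a uniformiser of level `1` is a unit times a positive power of a uniformiser of
level `2`. -/
theorem exists_unif (P : ValuationSubring Qb) (hle : E₁ ≤ E₂)
    (hdvr₂ : IsDiscreteValuationRing (RE P E₂)) {w₁ : RE P E₁} {w₂ : RE P E₂}
    (hw₁ : Irreducible w₁) (hw₂ : Irreducible w₂) :
    ∃ (η : RE P E₂) (e : ℕ), IsUnit η ∧ 0 < e ∧ reMap P hle w₁ = η * w₂ ^ e := by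
  haveI := hdvr₂
  have h0 : reMap P hle w₁ ≠ 0 := by
    intro h
    apply hw₁.ne_zero
    apply reMap_injective P hle
    rw [h, map_zero]
  obtain ⟨e, u, hu⟩ := IsDiscreteValuationRing.eq_unit_mul_pow_irreducible h0 hw₂
  refine ⟨u, e, u.isUnit, ?_, hu⟩
  rcases Nat.eq_zero_or_pos e with he | he
  · exfalso
    rw [he, pow_zero, mul_one] at hu
    apply hw₁.not_isUnit
    apply isUnit_of_reMap P hle
    rw [hu]
    exact u.isUnit
  · exact he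

/-! ### The level map -/

/-- **The level map** `F_{E₁}(N) → F_{E₂}(N)`: coefficientwise inclusion. -/
def levelMap (hle : E₁ ≤ E₂) (N : ℕ) : FE E₁ N →+* FE E₂ N where
  toFun x := ⟨coeffMap (inclE hle) (x : LaurentSeries E₁),
    Fermat.Agent.S18.H602.coeffMap_mem_laurentBaseChange (modularFunctionFieldFull N) _ x.2⟩
  map_one' := Subtype.ext (map_one _)
  map_mul' _ _ := Subtype.ext (map_mul _ _ _)
  map_zero' := Subtype.ext (map_zero _)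
  map_add' _ _ := Subtype.ext (map_add _ _ _)

@[simp] theorem coe_levelMap (hle : E₁ ≤ E₂) (N : ℕ) (x : FE E₁ N) :
    ((levelMap hle N x : FE E₂ N) : LaurentSeries E₂) =
      coeffMap (inclE hle) (x : LaurentSeries E₁) := rfl

theorem levelMap_injective (hle : E₁ ≤ E₂) (N : ℕ) : Function.Injective (levelMap hle N) :=
  (levelMap hle N).injective

/-- `ι₂ ∘ levelMap = ι₁`. -/
theorem iota_levelMap (hle : E₁ ≤ E₂) (N : ℕ) (x : FE E₁ N) :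
    T1.H669.iota E₂ (modularFunctionFieldFull N) (levelMap hle N x) =
      T1.H669.iota E₁ (modularFunctionFieldFull N) x := by
  apply Subtype.ext
  show coeffMap (algebraMap E₂ Qb) (coeffMap (inclE hle) (x : LaurentSeries E₁)) =
    coeffMap (algebraMap E₁ Qb) (x : LaurentSeries E₁)
  rw [coeffMap_coeffMap]
  exact coeffMap_congr (algebraMap_comp_inclE hle) _

/-- The level map is the unique ring homomorphism compatible with the embeddings into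
`ℚ̄(X₀(N))`. -/
theorem eq_levelMap_of_iota (hle : E₁ ≤ E₂) (N : ℕ) (φ : FE E₁ N →+* FE E₂ N)
    (h : ∀ x, T1.H669.iota E₂ (modularFunctionFieldFull N) (φ x) =
      T1.H669.iota E₁ (modularFunctionFieldFull N) x) : φ = levelMap hle N := by
  ext x : 1
  apply T1.H669.iota_injective E₂ (modularFunctionFieldFull N)
  rw [h, iota_levelMap]

theorem levelMap_algebraMap (hle : E₁ ≤ E₂) (N : ℕ) (e : E₁) :
    levelMap hle N (algebraMap E₁ (FE E₁ N) e) = algebraMap E₂ (FE E₂ N) (inclE hle e) :=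
  Subtype.ext (Fermat.Agent.S18.H602.coeffMap_algebraMap' (inclE hle) e)

theorem levelMap_cE (P : ValuationSubring Qb) (hle : E₁ ≤ E₂) (N : ℕ) (r : RE P E₁) :
    levelMap hle N (Mod.cE P E₁ N r) = Mod.cE P E₂ N (reMap P hle r) :=
  levelMap_algebraMap hle N (r : E₁)

theorem levelMap_jE (hle : E₁ ≤ E₂) (N : ℕ) (d : ℕ) [NeZero d] (hd : d ∣ N) :
    levelMap hle N (Mod.jE E₁ N d hd) = Mod.jE E₂ N d hd :=
  Subtype.ext (Fermat.Agent.S18.H602.coeffMap_coeffEmb' (inclE hle) _)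

theorem levelMap_xE (hle : E₁ ≤ E₂) (M q : ℕ) [NeZero M] [NeZero q] :
    levelMap hle (M * q) (Mod.xE E₁ M q) = Mod.xE E₂ M q := by
  rw [Mod.xE, Mod.xE, map_mul, levelMap_jE, levelMap_jE]

/-- The level map commutes with the Fricke involutions `H553.wE`. -/
theorem levelMap_wE (hle : E₁ ≤ E₂) (N : ℕ) [NeZero N] (y : FE E₁ N) :
    levelMap hle N (Mod.H553.wE E₁ N y) = Mod.H553.wE E₂ N (levelMap hle N y) := by
  apply T1.H669.iota_injective E₂ (modularFunctionFieldFull N)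
  rw [iota_levelMap, NC.iota_wE', NC.iota_wE', iota_levelMap]

/-- The level map commutes with ANY pair of Fricke involutions. -/
theorem levelMap_fricke (hle : E₁ ≤ E₂) (N : ℕ) [NeZero N]
    {W₁ : FE E₁ N ≃ₐ[E₁] FE E₁ N} {W₂ : FE E₂ N ≃ₐ[E₂] FE E₂ N}
    (hW₁ : Mod.IsFricke E₁ N W₁) (hW₂ : Mod.IsFricke E₂ N W₂) (y : FE E₁ N) :
    levelMap hle N (W₁ y) = W₂ (levelMap hle N y) := by
  rw [Mod.H553.isFricke_unique E₁ (NeZero.ne N) hW₁ (Mod.H553.isFricke_wE E₁ N),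
    Mod.H553.isFricke_unique E₂ (NeZero.ne N) hW₂ (Mod.H553.isFricke_wE E₂ N)]
  exact levelMap_wE hle N y

/-! ### Gauss rings -/

section Gauss

variable {P : ValuationSubring Qb} {N : ℕ} [NeZero N]

/-- `y ∈ V∞(E) ↔ ι y ∈ V∞(ℚ̄)`. -/
theorem mem_Vinf_iff_iota {E : IntermediateField ℚ Qb} {ℓ : ℕ} (hℓ : ℓ ≠ 0)
    (hP : (ℓ : Qb) ∈ P.nonunits) (hdvr : IsDiscreteValuationRing (RE P E))
    {V : ValuationSubring (FE E N)} (hV : Mod.IsVinf P E N V) (y : FE E N) :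
    y ∈ V ↔ T1.H669.iota E (modularFunctionFieldFull N) y ∈ H708.Vinf N P hℓ hP :=
  ⟨fun h => NC.iota_mem_Vinf hℓ hP hV h,
    fun h => H216.gaussDescent P E N hℓ hP hdvr V hV y h⟩

/-- **`V∞(E₂) ∩ F_{E₁} = V∞(E₁)`.** -/
theorem levelMap_mem_Vinf_iff (hle : E₁ ≤ E₂) {ℓ : ℕ} (hℓ : ℓ ≠ 0)
    (hP : (ℓ : Qb) ∈ P.nonunits) (hdvr₁ : IsDiscreteValuationRing (RE P E₁))
    (hdvr₂ : IsDiscreteValuationRing (RE P E₂))
    {V₁ : ValuationSubring (FE E₁ N)} {V₂ : ValuationSubring (FE E₂ N)}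
    (hV₁ : Mod.IsVinf P E₁ N V₁) (hV₂ : Mod.IsVinf P E₂ N V₂) (y : FE E₁ N) :
    levelMap hle N y ∈ V₂ ↔ y ∈ V₁ := by
  rw [mem_Vinf_iff_iota hℓ hP hdvr₂ hV₂, mem_Vinf_iff_iota hℓ hP hdvr₁ hV₁, iota_levelMap]

/-- **`V₀(E₂) ∩ F_{E₁} = V₀(E₁)`.** -/
theorem levelMap_mem_Vzero_iff (hle : E₁ ≤ E₂) {ℓ : ℕ} (hℓ : ℓ ≠ 0)
    (hP : (ℓ : Qb) ∈ P.nonunits) (hdvr₁ : IsDiscreteValuationRing (RE P E₁))
    (hdvr₂ : IsDiscreteValuationRing (RE P E₂))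
    {V₁ : ValuationSubring (FE E₁ N)} {V₂ : ValuationSubring (FE E₂ N)}
    (hV₁ : Mod.IsVinf P E₁ N V₁) (hV₂ : Mod.IsVinf P E₂ N V₂)
    {W₁ : FE E₁ N ≃ₐ[E₁] FE E₁ N} {W₂ : FE E₂ N ≃ₐ[E₂] FE E₂ N}
    (hW₁ : Mod.IsFricke E₁ N W₁) (hW₂ : Mod.IsFricke E₂ N W₂) (y : FE E₁ N) :
    levelMap hle N y ∈ V₂.comap (W₂ : FE E₂ N →+* FE E₂ N) ↔
      y ∈ V₁.comap (W₁ : FE E₁ N →+* FE E₁ N) := by
  show W₂ (levelMap hle N y) ∈ V₂ ↔ W₁ y ∈ V₁
  rw [← levelMap_fricke hle N hW₁ hW₂, levelMap_mem_Vinf_iff hle hℓ hP hdvr₁ hdvr₂ hV₁ hV₂]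

/-- In a valuation ring, a nonzero element is a nonunit iff its inverse is not in the ring. -/
theorem mem_nonunits_iff_inv_not_mem {K : Type*} [Field K] (A : ValuationSubring K) {a : K}
    (ha : a ≠ 0) : a ∈ A.nonunits ↔ a⁻¹ ∉ A := by
  have h := Valuation.one_lt_val_iff A.valuation (inv_ne_zero ha)
  rw [inv_inv] at h
  rw [ValuationSubring.mem_nonunits_iff, ← h, ← not_le, ValuationSubring.valuation_le_one_iff]

theorem zero_mem_nonunits' {K : Type*} [Field K] (A : ValuationSubring K) :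
    (0 : K) ∈ A.nonunits := by
  rw [ValuationSubring.mem_nonunits_iff, map_zero]
  exact zero_lt_one

/-- A valuation ring of `F_{E₂}` whose trace on `F_{E₁}` is `V₁`: same for the maximal ideals. -/
theorem levelMap_mem_nonunits_iff (hle : E₁ ≤ E₂)
    {V₁ : ValuationSubring (FE E₁ N)} {V₂ : ValuationSubring (FE E₂ N)}
    (h : ∀ y : FE E₁ N, levelMap hle N y ∈ V₂ ↔ y ∈ V₁) (y : FE E₁ N) :
    levelMap hle N y ∈ V₂.nonunits ↔ y ∈ V₁.nonunits := by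
  by_cases hy : y = 0
  · subst hy
    rw [map_zero]
    exact ⟨fun _ => zero_mem_nonunits' V₁, fun _ => zero_mem_nonunits' V₂⟩
  · have hy' : levelMap hle N y ≠ 0 := (map_ne_zero_iff _ (levelMap_injective hle N)).2 hy
    rw [mem_nonunits_iff_inv_not_mem V₂ hy', mem_nonunits_iff_inv_not_mem V₁ hy, ← map_inv₀, h]

/-- **`w₂ V∞(E₂) ∩ F_{E₁} = w₁ V∞(E₁)`.** -/
theorem levelMap_inW_iff (hle : E₁ ≤ E₂) {ℓ : ℕ} (hℓ : ℓ ≠ 0)
    (hP : (ℓ : Qb) ∈ P.nonunits) (hdvr₁ : IsDiscreteValuationRing (RE P E₁))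
    (hdvr₂ : IsDiscreteValuationRing (RE P E₂))
    {w₁ : RE P E₁} {w₂ : RE P E₂} (hw₁ : Irreducible w₁) (hw₂ : Irreducible w₂)
    {V₁ : ValuationSubring (FE E₁ N)} {V₂ : ValuationSubring (FE E₂ N)}
    (hV₁ : Mod.IsVinf P E₁ N V₁) (hV₂ : Mod.IsVinf P E₂ N V₂) (y : FE E₁ N) :
    Mod.InW P E₂ N V₂ w₂ (levelMap hle N y) ↔ Mod.InW P E₁ N V₁ w₁ y := by
  haveI := hdvr₁
  haveI := hdvr₂
  have hu₁ := (Mod.H553.vinfBasic P E₁ w₁ N (NeZero.ne N) hdvr₁ hw₁ V₁ hV₁).1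
  have hu₂ := (Mod.H553.vinfBasic P E₂ w₂ N (NeZero.ne N) hdvr₂ hw₂ V₂ hV₂).1
  rw [Mod.H13.inW_iff_mem_nonunits hu₂, Mod.H13.inW_iff_mem_nonunits hu₁]
  exact levelMap_mem_nonunits_iff hle
    (fun z => levelMap_mem_Vinf_iff hle hℓ hP hdvr₁ hdvr₂ hV₁ hV₂ z) y

/-- **`w₂ V₀(E₂) ∩ F_{E₁} = w₁ V₀(E₁)`.** -/
theorem levelMap_inW_comap_iff (hle : E₁ ≤ E₂) {ℓ : ℕ} (hℓ : ℓ ≠ 0)
    (hP : (ℓ : Qb) ∈ P.nonunits) (hdvr₁ : IsDiscreteValuationRing (RE P E₁))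
    (hdvr₂ : IsDiscreteValuationRing (RE P E₂))
    {w₁ : RE P E₁} {w₂ : RE P E₂} (hw₁ : Irreducible w₁) (hw₂ : Irreducible w₂)
    {V₁ : ValuationSubring (FE E₁ N)} {V₂ : ValuationSubring (FE E₂ N)}
    (hV₁ : Mod.IsVinf P E₁ N V₁) (hV₂ : Mod.IsVinf P E₂ N V₂)
    {W₁ : FE E₁ N ≃ₐ[E₁] FE E₁ N} {W₂ : FE E₂ N ≃ₐ[E₂] FE E₂ N}
    (hW₁ : Mod.IsFricke E₁ N W₁) (hW₂ : Mod.IsFricke E₂ N W₂) (y : FE E₁ N) :
    Mod.InW P E₂ N (V₂.comap (W₂ : FE E₂ N →+* FE E₂ N)) w₂ (levelMap hle N y) ↔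
      Mod.InW P E₁ N (V₁.comap (W₁ : FE E₁ N →+* FE E₁ N)) w₁ y := by
  haveI := hdvr₁
  haveI := hdvr₂
  have hu₁ := Mod.H13.isUnif_comap
    (Mod.H553.vinfBasic P E₁ w₁ N (NeZero.ne N) hdvr₁ hw₁ V₁ hV₁).1 W₁
  have hu₂ := Mod.H13.isUnif_comap
    (Mod.H553.vinfBasic P E₂ w₂ N (NeZero.ne N) hdvr₂ hw₂ V₂ hV₂).1 W₂
  rw [Mod.H13.inW_iff_mem_nonunits hu₂, Mod.H13.inW_iff_mem_nonunits hu₁]
  exact levelMap_mem_nonunits_iff hle
    (fun z => levelMap_mem_Vzero_iff hle hℓ hP hdvr₁ hdvr₂ hV₁ hV₂ hW₁ hW₂ z) y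

end Gauss

end Fermat.Agent.Ribet.H279.TwoLevel
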