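import Fermat.Agent.Ribet.H279.TwoLevelCut
import Fermat.Agent.Ribet.H862.StdModel

/-!
# Row 38, WALL-p, (S4) CORE-OUT WILD, WildFrame piece **2-LEVEL MODEL** (helper279)

Levels `E₁ ≤ E₂ ⊆ ℚ̄` with `Mod.Setting P Eᵢ M q wᵢ` (`R_{Eᵢ}` discrete valuation rings with
uniformisers `wᵢ`; NO further hypothesis on the levels), `N = M * q`, `Oᵢ = R_{Eᵢ}`,
`Kᵢ = F_{Eᵢ}(N)`, `Bᵢ = Mod.chartAlg P Eᵢ N (Mod.xE Eᵢ M q)` (finite charts).

* `chartCtx_of_setting` : `Alg.ChartCtx Eᵢ wᵢ xᵢ Bᵢ` (`ctx₁`);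
* `exists_chart_cut`    : a semistable chart `c : SSChart w B` whose components are the cuts by
                          `V∞` (first) and `V₀ = V∞ ∘ W` (second), for EVERY `V∞`, `W`;
* **`twoLevelModel`**   : charts `c₁`, `c₂` with cut data, `ctx₁`, `ctx₂`, and the fields
                          `map_mem`, `comp₁`, `comp₂`, `unif` of `H704.CoreOut.WildFrame`, for the
                          instances `algO`, `algK`, `algOK` of `TwoLevelCut.lean`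
                          (`algebraMap K₁ K₂ = levelMap hle N`, `algebraMap O₁ O₂ = reMap P hle`,
                          both by `rfl`);
* `twoLevelModel_inst`  : the same statement written with `algebraMap` under the instances.
-/

set_option autoImplicit false
set_option linter.unusedSectionVars false
set_option linter.unusedVariables false
set_option linter.style.haveILetI false
set_option synthInstance.maxHeartbeats 400000
set_option maxHeartbeats 1600000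

noncomputable section

namespace Fermat.Agent.Ribet.H279.TwoLevel

open AlgebraicCurve ModularCurve HahnSeries
open Fermat.Agent.A2

/-! ### One level -/

section OneLevel

variable {P : ValuationSubring Qb} {E : IntermediateField ℚ Qb} {M q : ℕ} [NeZero M] [NeZero q]
  {w : RE P E}

/-- **`ctx`**: the standing hypotheses of the finite chart. -/
theorem chartCtx_of_setting (hS : Mod.Setting P E M q w) :
    Alg.ChartCtx E w (Mod.xE E M q) (Mod.chartAlg P E (M * q) (Mod.xE E M q)) := by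
  obtain ⟨hx, hfr, hconst⟩ := Mod.H31.deg E M q hS.q_prime hS.q_not_dvd
  have hpos : 0 < Module.finrank
      (IntermediateField.adjoin E ({Mod.xE E M q} : Set (Mod.FE E (M * q))))
      (Mod.FE E (M * q)) := by
    rw [hfr]
    have := Mod.dedekindPsi_pos_of_ne_zero M (NeZero.ne M)
    positivity
  exact ⟨hS.unif, hx, Module.finite_of_finrank_pos hpos, hconst, fun _ => Iff.rfl⟩

/-- The semistable finite chart with its cut data: first component `= B ∩ w V∞`, second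
component `= B ∩ w V₀`, for EVERY Gauss ring `V∞` and Fricke involution `W`. -/
theorem exists_chart_cut (hS : Mod.Setting P E M q w) (h3 : q = 3 → 2 ∣ M)
    (h2 : q = 2 → 3 ∣ M) :
    ∃ c : SSChart w (Mod.chartAlg P E (M * q) (Mod.xE E M q)),
      ∀ (V : ValuationSubring (Mod.FE E (M * q)))
        (W : Mod.FE E (M * q) ≃ₐ[E] Mod.FE E (M * q)),
        Mod.IsVinf P E (M * q) V → Mod.IsFricke E (M * q) W →
        Mod.IsCut P E (M * q) w V (Mod.chartAlg P E (M * q) (Mod.xE E M q)) c.p₁ ∧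
        Mod.IsCut P E (M * q) w (V.comap (W : Mod.FE E (M * q) →+* Mod.FE E (M * q)))
          (Mod.chartAlg P E (M * q) (Mod.xE E M q)) c.p₂ := by
  haveI := hS.dvr
  have hN : M * q ≠ 0 := mul_ne_zero (NeZero.ne M) (NeZero.ne q)
  haveI : NeZero (M * q) := ⟨hN⟩
  obtain ⟨VM, hVM⟩ := Mod.H553.vinfExists P E M (NeZero.ne M) hS.dvr
  obtain ⟨V₀, hV₀⟩ := Mod.H553.vinfExists P E (M * q) hN hS.dvr
  have hW₀ : Mod.IsFricke E (M * q) (Mod.H553.wE E (M * q)) := Mod.H553.isFricke_wE E (M * q)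
  have hgood := (Mod.H216.goodRedHyp_of_dvr P E M hS.q_prime hS.q_not_dvd h3 h2 hS.lies_over
    hS.dvr w VM hS.unif hVM).1
  have hy : Mod.IsCoordPair E M q (Mod.jE E M 1 (one_dvd _)) (Mod.xE E M q) :=
    Or.inl ⟨rfl, rfl⟩
  obtain ⟨p₁, p₂, hc₁, hc₂, hp₁, hp₂, h₁₂, h₂₁, hinf⟩ :=
    Fermat.Agent.S35.G.H862.s1 P E M q w hS V₀ (Mod.H553.wE E (M * q)) hV₀ hW₀
      (Mod.xE E M q) (Or.inl rfl)
  obtain ⟨hn₁, hn₂⟩ := Mod.H142.s2 P E M q w hS VM V₀ (Mod.H553.wE E (M * q)) hVM hV₀ hW₀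
    _ _ hy hgood p₁ p₂ hc₁ hc₂
  have hrad := Fermat.Agent.S35.G.H862.s3 P E M q w hS VM V₀ (Mod.H553.wE E (M * q)) hVM hV₀
    hW₀ _ _ hy hgood p₁ p₂ hc₁ hc₂
  refine ⟨{ p₁ := p₁
            p₂ := p₂
            prime₁ := hp₁
            prime₂ := hp₂
            ne := fun h => h₁₂ (h ▸ le_refl p₁)
            not_le₁₂ := h₁₂
            not_le₂₁ := h₂₁
            inf_eq := hinf
            normal₁ := hn₁
            normal₂ := hn₂
            transversal := hrad }, fun V W hV hW => ?_⟩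
  have e1 : V = V₀ := by
    rw [Mod.H553.eq_VinfE_of_isVinf hV, Mod.H553.eq_VinfE_of_isVinf hV₀]
  have e2 : W = Mod.H553.wE E (M * q) := Mod.H553.isFricke_unique E hN hW hW₀
  subst e1
  subst e2
  exact ⟨hc₁, hc₂⟩

end OneLevel

/-! ### Two levels -/

section TwoLevels

variable {E₁ E₂ : IntermediateField ℚ Qb}

/-- **2-LEVEL MODEL.**  For levels `E₁ ≤ E₂` with uniformisers `w₁`, `w₂`: semistable structures
`c₁`, `c₂` on the finite charts `B₁`, `B₂` of level `M * q` (components cut out by `V∞`, `V₀`),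
the chart contexts, `B₁ → B₂`, the components of `B₂` lie over the components of `B₁`, and
`w₁ = η · w₂ ^ e`. -/
theorem twoLevelModel (P : ValuationSubring Qb) (hle : E₁ ≤ E₂) (M q : ℕ) [NeZero M] [NeZero q]
    {w₁ : RE P E₁} {w₂ : RE P E₂} (hS₁ : Mod.Setting P E₁ M q w₁)
    (hS₂ : Mod.Setting P E₂ M q w₂) (h3 : q = 3 → 2 ∣ M) (h2 : q = 2 → 3 ∣ M) :
    ∃ (c₁ : SSChart w₁ (Mod.chartAlg P E₁ (M * q) (Mod.xE E₁ M q)))
      (c₂ : SSChart w₂ (Mod.chartAlg P E₂ (M * q) (Mod.xE E₂ M q))),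
      Alg.ChartCtx E₁ w₁ (Mod.xE E₁ M q) (Mod.chartAlg P E₁ (M * q) (Mod.xE E₁ M q)) ∧
      Alg.ChartCtx E₂ w₂ (Mod.xE E₂ M q) (Mod.chartAlg P E₂ (M * q) (Mod.xE E₂ M q)) ∧
      (∀ (V : ValuationSubring (Mod.FE E₁ (M * q)))
        (W : Mod.FE E₁ (M * q) ≃ₐ[E₁] Mod.FE E₁ (M * q)),
        Mod.IsVinf P E₁ (M * q) V → Mod.IsFricke E₁ (M * q) W →
        Mod.IsCut P E₁ (M * q) w₁ V (Mod.chartAlg P E₁ (M * q) (Mod.xE E₁ M q)) c₁.p₁ ∧
        Mod.IsCut P E₁ (M * q) w₁ (V.comap (W : Mod.FE E₁ (M * q) →+* Mod.FE E₁ (M * q)))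
          (Mod.chartAlg P E₁ (M * q) (Mod.xE E₁ M q)) c₁.p₂) ∧
      (∀ (V : ValuationSubring (Mod.FE E₂ (M * q)))
        (W : Mod.FE E₂ (M * q) ≃ₐ[E₂] Mod.FE E₂ (M * q)),
        Mod.IsVinf P E₂ (M * q) V → Mod.IsFricke E₂ (M * q) W →
        Mod.IsCut P E₂ (M * q) w₂ V (Mod.chartAlg P E₂ (M * q) (Mod.xE E₂ M q)) c₂.p₁ ∧
        Mod.IsCut P E₂ (M * q) w₂ (V.comap (W : Mod.FE E₂ (M * q) →+* Mod.FE E₂ (M * q)))
          (Mod.chartAlg P E₂ (M * q) (Mod.xE E₂ M q)) c₂.p₂) ∧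
      (∀ b ∈ Mod.chartAlg P E₁ (M * q) (Mod.xE E₁ M q),
        levelMap hle (M * q) b ∈ Mod.chartAlg P E₂ (M * q) (Mod.xE E₂ M q)) ∧
      (∀ (b : Mod.chartAlg P E₁ (M * q) (Mod.xE E₁ M q))
        (b' : Mod.chartAlg P E₂ (M * q) (Mod.xE E₂ M q)),
        (b' : Mod.FE E₂ (M * q)) = levelMap hle (M * q) (b : Mod.FE E₁ (M * q)) →
        (b' ∈ c₂.p₁ ↔ b ∈ c₁.p₁)) ∧
      (∀ (b : Mod.chartAlg P E₁ (M * q) (Mod.xE E₁ M q))
        (b' : Mod.chartAlg P E₂ (M * q) (Mod.xE E₂ M q)),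
        (b' : Mod.FE E₂ (M * q)) = levelMap hle (M * q) (b : Mod.FE E₁ (M * q)) →
        (b' ∈ c₂.p₂ ↔ b ∈ c₁.p₂)) ∧
      ∃ (η : RE P E₂) (e : ℕ), IsUnit η ∧ 0 < e ∧ reMap P hle w₁ = η * w₂ ^ e := by
  have hN : M * q ≠ 0 := mul_ne_zero (NeZero.ne M) (NeZero.ne q)
  haveI : NeZero (M * q) := ⟨hN⟩
  obtain ⟨c₁, hc₁⟩ := exists_chart_cut hS₁ h3 h2
  obtain ⟨c₂, hc₂⟩ := exists_chart_cut hS₂ h3 h2
  obtain ⟨V₁, hV₁⟩ := Mod.H553.vinfExists P E₁ (M * q) hN hS₁.dvr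
  obtain ⟨V₂, hV₂⟩ := Mod.H553.vinfExists P E₂ (M * q) hN hS₂.dvr
  have hW₁ : Mod.IsFricke E₁ (M * q) (Mod.H553.wE E₁ (M * q)) :=
    Mod.H553.isFricke_wE E₁ (M * q)
  have hW₂ : Mod.IsFricke E₂ (M * q) (Mod.H553.wE E₂ (M * q)) :=
    Mod.H553.isFricke_wE E₂ (M * q)
  have hq0 : q ≠ 0 := NeZero.ne q
  have hP : ((q : ℕ) : Qb) ∈ P.nonunits := hS₁.lies_over
  refine ⟨c₁, c₂, chartCtx_of_setting hS₁, chartCtx_of_setting hS₂, hc₁, hc₂,
    fun b hb => levelMap_mem_chartAlg P hle M q hb, ?_, ?_,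
    exists_unif P hle hS₂.dvr hS₁.unif hS₂.unif⟩
  · exact comp_of_cut_inf hle hq0 hP hS₁.dvr hS₂.dvr hS₁.unif hS₂.unif hV₁ hV₂
      (hc₁ V₁ _ hV₁ hW₁).1 (hc₂ V₂ _ hV₂ hW₂).1
  · exact comp_of_cut_zero hle hq0 hP hS₁.dvr hS₂.dvr hS₁.unif hS₂.unif hV₁ hV₂ hW₁ hW₂
      (hc₁ V₁ _ hV₁ hW₁).2 (hc₂ V₂ _ hV₂ hW₂).2

/-- **2-LEVEL MODEL, instance form**: the fields `ctx₁`, `map_mem`, `comp₁`, `comp₂`, `unif` of
`H704.CoreOut.WildFrame` (and the chart context of level `2`), written with `algebraMap` for the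
instances `algO P hle : Algebra O₁ O₂`, `algK hle N : Algebra K₁ K₂`. -/
theorem twoLevelModel_inst (P : ValuationSubring Qb) (hle : E₁ ≤ E₂) (M q : ℕ) [NeZero M]
    [NeZero q] {w₁ : RE P E₁} {w₂ : RE P E₂} (hS₁ : Mod.Setting P E₁ M q w₁)
    (hS₂ : Mod.Setting P E₂ M q w₂) (h3 : q = 3 → 2 ∣ M) (h2 : q = 2 → 3 ∣ M) :
    letI := algO P hle
    letI := algK hle (M * q)
    ∃ (c₁ : SSChart w₁ (Mod.chartAlg P E₁ (M * q) (Mod.xE E₁ M q)))
      (c₂ : SSChart w₂ (Mod.chartAlg P E₂ (M * q) (Mod.xE E₂ M q))),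
      Alg.ChartCtx E₁ w₁ (Mod.xE E₁ M q) (Mod.chartAlg P E₁ (M * q) (Mod.xE E₁ M q)) ∧
      Alg.ChartCtx E₂ w₂ (Mod.xE E₂ M q) (Mod.chartAlg P E₂ (M * q) (Mod.xE E₂ M q)) ∧
      (∀ b ∈ Mod.chartAlg P E₁ (M * q) (Mod.xE E₁ M q),
        algebraMap (Mod.FE E₁ (M * q)) (Mod.FE E₂ (M * q)) b ∈
          Mod.chartAlg P E₂ (M * q) (Mod.xE E₂ M q)) ∧
      (∀ (b : Mod.chartAlg P E₁ (M * q) (Mod.xE E₁ M q))
        (b' : Mod.chartAlg P E₂ (M * q) (Mod.xE E₂ M q)),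
        (b' : Mod.FE E₂ (M * q)) =
          algebraMap (Mod.FE E₁ (M * q)) (Mod.FE E₂ (M * q)) (b : Mod.FE E₁ (M * q)) →
        (b' ∈ c₂.p₁ ↔ b ∈ c₁.p₁)) ∧
      (∀ (b : Mod.chartAlg P E₁ (M * q) (Mod.xE E₁ M q))
        (b' : Mod.chartAlg P E₂ (M * q) (Mod.xE E₂ M q)),
        (b' : Mod.FE E₂ (M * q)) =
          algebraMap (Mod.FE E₁ (M * q)) (Mod.FE E₂ (M * q)) (b : Mod.FE E₁ (M * q)) →
        (b' ∈ c₂.p₂ ↔ b ∈ c₁.p₂)) ∧
      ∃ (η : RE P E₂) (e : ℕ), IsUnit η ∧ 0 < e ∧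
        algebraMap (RE P E₁) (RE P E₂) w₁ = η * w₂ ^ e := by
  obtain ⟨c₁, c₂, h1, h2', -, -, h5, h6, h7, h8⟩ := twoLevelModel P hle M q hS₁ hS₂ h3 h2
  exact ⟨c₁, c₂, h1, h2', h5, h6, h7, h8⟩

end TwoLevels

end Fermat.Agent.Ribet.H279.TwoLevel
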