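import Fermat.Agent.Ribet.H279.LevelMap
import Fermat.Agent.A2.Mod.Asm
import Fermat.Agent.A2.Alg.Spec

/-!
# Row 38, WALL-p, (S4) CORE-OUT WILD, WildFrame piece **2-LEVEL MODEL**, part 2 (helper279):
# instances, `B₁ → B₂`, components of level `2` over components of level `1`

Levels `E₁ ≤ E₂ ⊆ ℚ̄`, `Oᵢ = R_{Eᵢ}`, `Kᵢ = F_{Eᵢ}(N)`.

* `algO`, `algK`, `algOK` : the instances `Algebra O₁ O₂`, `Algebra K₁ K₂`, `Algebra O₁ K₂`
  (= `reMap`, `levelMap`, composite), `towerOOK`, `towerOKK` : the two scalar towers of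
  `H704.CoreOut.WildFrame`; `algebraMap` is `levelMap` / `reMap` by `rfl`;
* `levelMap_mem_chartAlg` : `B₁ → B₂` (`map_mem`);
* `comp_of_cut_inf`, `comp_of_cut_zero` : `b ∈ B₁ ∩ w₁ V(E₁) ↔ levelMap b ∈ B₂ ∩ w₂ V(E₂)` for the
  cuts by `V∞` and by `V₀` (`comp₁`, `comp₂`).
-/

set_option autoImplicit false
set_option linter.unusedSectionVars false
set_option linter.unusedVariables false
set_option linter.style.haveILetI false
set_option synthInstance.maxHeartbeats 400000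
set_option maxHeartbeats 1600000

noncomputable section

namespace Fermat.Agent.Ribet.H279.TwoLevel

open AlgebraicCurve ModularCurve HahnSeries
open Fermat.Agent.A2

variable {E₁ E₂ : IntermediateField ℚ Qb}

/-! ### Instances -/

/-- `Algebra O₁ O₂`. -/
@[reducible] def algO (P : ValuationSubring Qb) (hle : E₁ ≤ E₂) : Algebra (RE P E₁) (RE P E₂) :=
  (reMap P hle).toAlgebra

/-- `Algebra K₁ K₂`. -/
@[reducible] def algK (hle : E₁ ≤ E₂) (N : ℕ) : Algebra (FE E₁ N) (FE E₂ N) :=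
  (levelMap hle N).toAlgebra

/-- `Algebra O₁ K₂`. -/
@[reducible] def algOK (P : ValuationSubring Qb) (hle : E₁ ≤ E₂) (N : ℕ) :
    Algebra (RE P E₁) (FE E₂ N) :=
  ((algebraMap (RE P E₂) (FE E₂ N)).comp (reMap P hle)).toAlgebra

theorem algebraMap_algO (P : ValuationSubring Qb) (hle : E₁ ≤ E₂) :
    @algebraMap (RE P E₁) (RE P E₂) _ _ (algO P hle) = reMap P hle := rfl

theorem algebraMap_algK (hle : E₁ ≤ E₂) (N : ℕ) :
    @algebraMap (FE E₁ N) (FE E₂ N) _ _ (algK hle N) = levelMap hle N := rfl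

theorem algebraMap_algOK (P : ValuationSubring Qb) (hle : E₁ ≤ E₂) (N : ℕ) :
    @algebraMap (RE P E₁) (FE E₂ N) _ _ (algOK P hle N) =
      (algebraMap (RE P E₂) (FE E₂ N)).comp (reMap P hle) := rfl

/-- The constants: `levelMap ∘ (O₁ → K₁) = (O₂ → K₂) ∘ reMap`. -/
theorem levelMap_algebraMap_RE (P : ValuationSubring Qb) (hle : E₁ ≤ E₂) (N : ℕ) (r : RE P E₁) :
    levelMap hle N (algebraMap (RE P E₁) (FE E₁ N) r) =
      algebraMap (RE P E₂) (FE E₂ N) (reMap P hle r) :=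
  levelMap_cE P hle N r

/-- `IsScalarTower O₁ O₂ K₂`. -/
theorem towerOOK (P : ValuationSubring Qb) (hle : E₁ ≤ E₂) (N : ℕ) :
    letI := algO P hle
    letI := algOK P hle N
    IsScalarTower (RE P E₁) (RE P E₂) (FE E₂ N) := by
  letI := algO P hle
  letI := algOK P hle N
  exact IsScalarTower.of_algebraMap_eq (fun _ => rfl)

/-- `IsScalarTower O₁ K₁ K₂`. -/
theorem towerOKK (P : ValuationSubring Qb) (hle : E₁ ≤ E₂) (N : ℕ) :
    letI := algK hle N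
    letI := algOK P hle N
    IsScalarTower (RE P E₁) (FE E₁ N) (FE E₂ N) := by
  letI := algK hle N
  letI := algOK P hle N
  exact IsScalarTower.of_algebraMap_eq (fun r => (levelMap_algebraMap_RE P hle N r).symm)

/-! ### `B₁ → B₂` -/

theorem levelMap_mem_adjoin (P : ValuationSubring Qb) (hle : E₁ ≤ E₂) (N : ℕ) {x₁ c : FE E₁ N}
    (hc : c ∈ Algebra.adjoin (RE P E₁) ({x₁} : Set (FE E₁ N))) :
    levelMap hle N c ∈ Algebra.adjoin (RE P E₂) ({levelMap hle N x₁} : Set (FE E₂ N)) := by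
  induction hc using Algebra.adjoin_induction with
  | mem y hy =>
      rw [Set.mem_singleton_iff.mp hy]
      exact Algebra.subset_adjoin (Set.mem_singleton _)
  | algebraMap r =>
      rw [levelMap_algebraMap_RE]
      exact Subalgebra.algebraMap_mem _ _
  | add _ _ _ _ h1 h2 => rw [map_add]; exact add_mem h1 h2
  | mul _ _ _ _ h1 h2 => rw [map_mul]; exact mul_mem h1 h2

/-- The level map on `R_{E₁}[x₁] → R_{E₂}[levelMap x₁]`. -/
def adjoinMap (P : ValuationSubring Qb) (hle : E₁ ≤ E₂) (N : ℕ) (x₁ : FE E₁ N) :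
    Algebra.adjoin (RE P E₁) ({x₁} : Set (FE E₁ N)) →+*
      Algebra.adjoin (RE P E₂) ({levelMap hle N x₁} : Set (FE E₂ N)) where
  toFun c := ⟨levelMap hle N (c : FE E₁ N), levelMap_mem_adjoin P hle N c.2⟩
  map_one' := Subtype.ext (map_one _)
  map_mul' _ _ := Subtype.ext (map_mul _ _ _)
  map_zero' := Subtype.ext (map_zero _)
  map_add' _ _ := Subtype.ext (map_add _ _ _)

/-- **`map_mem`** for an arbitrary coordinate. -/
theorem levelMap_mem_chartAlg' (P : ValuationSubring Qb) (hle : E₁ ≤ E₂) (N : ℕ)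
    {x₁ b : FE E₁ N} (hb : b ∈ Mod.chartAlg P E₁ N x₁) :
    levelMap hle N b ∈ Mod.chartAlg P E₂ N (levelMap hle N x₁) := by
  rw [Mod.mem_chartAlg] at hb ⊢
  exact IsIntegral.map_of_comp_eq (adjoinMap P hle N x₁) (levelMap hle N)
    (RingHom.ext fun _ => rfl) hb

/-- **`map_mem`**: the level map sends the finite chart of level `1` into the finite chart of
level `2`. -/
theorem levelMap_mem_chartAlg (P : ValuationSubring Qb) (hle : E₁ ≤ E₂) (M q : ℕ) [NeZero M]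
    [NeZero q] {b : FE E₁ (M * q)} (hb : b ∈ Mod.chartAlg P E₁ (M * q) (Mod.xE E₁ M q)) :
    levelMap hle (M * q) b ∈ Mod.chartAlg P E₂ (M * q) (Mod.xE E₂ M q) := by
  have h := levelMap_mem_chartAlg' P hle (M * q) hb
  rwa [levelMap_xE] at h

/-- The chart at infinity. -/
theorem levelMap_mem_chartAlg_inv (P : ValuationSubring Qb) (hle : E₁ ≤ E₂) (M q : ℕ) [NeZero M]
    [NeZero q] {b : FE E₁ (M * q)} (hb : b ∈ Mod.chartAlg P E₁ (M * q) (Mod.xE E₁ M q)⁻¹) :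
    levelMap hle (M * q) b ∈ Mod.chartAlg P E₂ (M * q) (Mod.xE E₂ M q)⁻¹ := by
  have h := levelMap_mem_chartAlg' P hle (M * q) hb
  rwa [map_inv₀, levelMap_xE] at h

/-! ### Components -/

section Comp

variable {P : ValuationSubring Qb} {N : ℕ} [NeZero N]

/-- **`comp₁`** from the cut data: the cut of `B₂` by `V∞(E₂)` lies over the cut of `B₁` by
`V∞(E₁)`. -/
theorem comp_of_cut_inf (hle : E₁ ≤ E₂) {ℓ : ℕ} (hℓ : ℓ ≠ 0)
    (hP : (ℓ : Qb) ∈ P.nonunits) (hdvr₁ : IsDiscreteValuationRing (RE P E₁))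
    (hdvr₂ : IsDiscreteValuationRing (RE P E₂))
    {w₁ : RE P E₁} {w₂ : RE P E₂} (hw₁ : Irreducible w₁) (hw₂ : Irreducible w₂)
    {V₁ : ValuationSubring (FE E₁ N)} {V₂ : ValuationSubring (FE E₂ N)}
    (hV₁ : Mod.IsVinf P E₁ N V₁) (hV₂ : Mod.IsVinf P E₂ N V₂)
    {B₁ : Subalgebra (RE P E₁) (FE E₁ N)} {B₂ : Subalgebra (RE P E₂) (FE E₂ N)}
    {p₁ : Ideal B₁} {p₂ : Ideal B₂}
    (hc₁ : Mod.IsCut P E₁ N w₁ V₁ B₁ p₁) (hc₂ : Mod.IsCut P E₂ N w₂ V₂ B₂ p₂)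
    (b : B₁) (b' : B₂) (hb : (b' : FE E₂ N) = levelMap hle N (b : FE E₁ N)) :
    b' ∈ p₂ ↔ b ∈ p₁ := by
  rw [hc₂ b', hc₁ b, hb]
  exact levelMap_inW_iff hle hℓ hP hdvr₁ hdvr₂ hw₁ hw₂ hV₁ hV₂ _

/-- **`comp₂`** from the cut data: the cut of `B₂` by `V₀(E₂)` lies over the cut of `B₁` by
`V₀(E₁)`. -/
theorem comp_of_cut_zero (hle : E₁ ≤ E₂) {ℓ : ℕ} (hℓ : ℓ ≠ 0)
    (hP : (ℓ : Qb) ∈ P.nonunits) (hdvr₁ : IsDiscreteValuationRing (RE P E₁))
    (hdvr₂ : IsDiscreteValuationRing (RE P E₂))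
    {w₁ : RE P E₁} {w₂ : RE P E₂} (hw₁ : Irreducible w₁) (hw₂ : Irreducible w₂)
    {V₁ : ValuationSubring (FE E₁ N)} {V₂ : ValuationSubring (FE E₂ N)}
    (hV₁ : Mod.IsVinf P E₁ N V₁) (hV₂ : Mod.IsVinf P E₂ N V₂)
    {W₁ : FE E₁ N ≃ₐ[E₁] FE E₁ N} {W₂ : FE E₂ N ≃ₐ[E₂] FE E₂ N}
    (hW₁ : Mod.IsFricke E₁ N W₁) (hW₂ : Mod.IsFricke E₂ N W₂)
    {B₁ : Subalgebra (RE P E₁) (FE E₁ N)} {B₂ : Subalgebra (RE P E₂) (FE E₂ N)}
    {p₁ : Ideal B₁} {p₂ : Ideal B₂}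
    (hc₁ : Mod.IsCut P E₁ N w₁ (V₁.comap (W₁ : FE E₁ N →+* FE E₁ N)) B₁ p₁)
    (hc₂ : Mod.IsCut P E₂ N w₂ (V₂.comap (W₂ : FE E₂ N →+* FE E₂ N)) B₂ p₂)
    (b : B₁) (b' : B₂) (hb : (b' : FE E₂ N) = levelMap hle N (b : FE E₁ N)) :
    b' ∈ p₂ ↔ b ∈ p₁ := by
  rw [hc₂ b', hc₁ b, hb]
  exact levelMap_inW_comap_iff hle hℓ hP hdvr₁ hdvr₂ hw₁ hw₂ hV₁ hV₂ hW₁ hW₂ _

end Comp

end Fermat.Agent.Ribet.H279.TwoLevel
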